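import Mathlib

/-!
# Kummer's lemma by a finite certificate: the abstract group-theoretic lemma
-/

set_option autoImplicit false

namespace Fermat.Agent.Kummer.KL

/-- The value of a homomorphism `D : E → V` (written multiplicatively) on a product of integer
powers is the corresponding `ZMod p`-linear combination of the values of `D`. -/
private theorem toAdd_map_prod_zpow {p : ℕ} {E : Type*} [CommGroup E]
    {V : Type*} [AddCommGroup V] [Module (ZMod p) V] {n : ℕ}
    (g : Fin n → E) (D : E →* Multiplicative V) (e : Fin n → ℤ) :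
    Multiplicative.toAdd (D (∏ i, g i ^ e i)) =
      Fintype.linearCombination (ZMod p) (fun i => Multiplicative.toAdd (D (g i)))
        (fun i => (e i : ZMod p)) := by
  rw [map_prod, toAdd_prod, Fintype.linearCombination_apply]
  refine Finset.sum_congr rfl fun i _ => ?_
  rw [map_zpow, toAdd_zpow]
  exact (Int.cast_smul_eq_zsmul (ZMod p) (e i) (Multiplicative.toAdd (D (g i)))).symm

/-- Let `E` be a commutative group generated by `n` elements and `D : E → V` a homomorphism to
an `𝔽_p`-vector space. If `D` takes linearly independent values on some `n` elements of `E`, then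
every element of the kernel of `D` is a `p`-th power. -/
theorem exists_pow_of_dlog_eq_one {p : ℕ} [Fact p.Prime] {E : Type*} [CommGroup E]
    {V : Type*} [AddCommGroup V] [Module (ZMod p) V] {n : ℕ}
    (g : Fin n → E) (hg : ∀ u : E, ∃ e : Fin n → ℤ, u = ∏ i, g i ^ e i)
    (D : E →* Multiplicative V) (c : Fin n → E)
    (hc : LinearIndependent (ZMod p) (fun i => Multiplicative.toAdd (D (c i))))
    (u : E) (hu : D u = 1) : ∃ v : E, u = v ^ p := by
  -- the linear map `x ↦ ∑ i, x i • D (g i)`
  let M : (Fin n → ZMod p) →ₗ[ZMod p] V :=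
    Fintype.linearCombination (ZMod p) (fun i => Multiplicative.toAdd (D (g i)))
  have hM : ∀ e : Fin n → ℤ,
      M (fun i => (e i : ZMod p)) = Multiplicative.toAdd (D (∏ i, g i ^ e i)) :=
    fun e => (toAdd_map_prod_zpow g D e).symm
  -- the exponent vectors of the `c j`, reduced modulo `p`
  choose a ha using fun j => hg (c j)
  let b : Fin n → (Fin n → ZMod p) := fun j i => (a j i : ZMod p)
  have hMb : ∀ j, M (b j) = Multiplicative.toAdd (D (c j)) := by
    intro j
    rw [ha j]
    exact hM (a j)
  -- they are linearly independent, hence span `Fin n → ZMod p`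
  have hbli : LinearIndependent (ZMod p) b := by
    apply LinearIndependent.of_comp M
    have : (M ∘ b) = fun j => Multiplicative.toAdd (D (c j)) := funext hMb
    rw [this]
    exact hc
  have hspan : Submodule.span (ZMod p) (Set.range b) = ⊤ :=
    hbli.span_eq_top_of_card_eq_finrank' (by rw [Module.finrank_fin_fun, Fintype.card_fin])
  -- hence `M` is injective
  have hMinj : ∀ x : Fin n → ZMod p, M x = 0 → x = 0 := by
    intro x hx
    have hxs : x ∈ Submodule.span (ZMod p) (Set.range b) := by
      rw [hspan]
      exact Submodule.mem_top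
    obtain ⟨l, rfl⟩ := (Submodule.mem_span_range_iff_exists_fun (ZMod p)).mp hxs
    rw [map_sum] at hx
    have hx' : ∑ j, l j • Multiplicative.toAdd (D (c j)) = 0 := by
      rw [← hx]
      refine Finset.sum_congr rfl fun j _ => ?_
      rw [map_smul, hMb j]
    have hl : ∀ j, l j = 0 := Fintype.linearIndependent_iff.mp hc l hx'
    refine Finset.sum_eq_zero fun j _ => ?_
    rw [hl j, zero_smul]
  -- conclusion
  obtain ⟨e, rfl⟩ := hg u
  have h0 : M (fun i => (e i : ZMod p)) = 0 := by
    rw [hM e, hu]
    rfl
  have h1 : (fun i => (e i : ZMod p)) = 0 := hMinj _ h0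
  have h2 : ∀ i, (p : ℤ) ∣ e i := fun i =>
    (ZMod.intCast_zmod_eq_zero_iff_dvd (e i) p).mp (congrFun h1 i)
  choose f hf using h2
  refine ⟨∏ i, g i ^ f i, ?_⟩
  rw [← Finset.prod_pow]
  refine Finset.prod_congr rfl fun i _ => ?_
  rw [hf i, mul_comm, zpow_mul, zpow_natCast]

end Fermat.Agent.Kummer.KL
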