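import Fermat.Agent.Kummer.KL.Defs

/-!
# Kummer's lemma by a finite certificate: the certificate for `p = 11`

Generated data: the matrix `w` of logarithmic derivatives of the cyclotomic units modulo `X^9`,
a right inverse `B`, the quotients `Q` and the polynomial identities.
-/

set_option autoImplicit false
set_option linter.unusedSimpArgs false
set_option linter.style.longLine false

namespace Fermat.Agent.Kummer.KL.Cert11

open Polynomial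

/-- The logarithmic derivatives of the cyclotomic units modulo `X^9`. -/
def w : Matrix (Fin 5) (Fin 9) (ZMod 11) :=
  !![1, 10, 1, 10, 1, 10, 1, 10, 1;
      6, 8, 7, 2, 10, 6, 8, 7, 2;
      1, 7, 0, 5, 6, 7, 2, 3, 0;
      7, 8, 1, 8, 7, 6, 4, 0, 0;
      2, 0, 10, 3, 0, 6, 5, 6, 5]

/-- A right inverse of `w`. -/
def B : Matrix (Fin 9) (Fin 5) (ZMod 11) :=
  !![9, 6, 7, 0, 2;
      1, 8, 7, 4, 2;
      0, 0, 0, 0, 0;
      9, 0, 1, 3, 1;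
      0, 0, 0, 0, 0;
      0, 8, 5, 0, 1;
      0, 0, 0, 0, 0;
      9, 1, 5, 4, 9;
      0, 0, 0, 0, 0]

/-- The quotients. -/
noncomputable def Q : Fin 5 → (ZMod 11)[X] :=
  ![10,
    9,
    8,
    7,
    2 + 3 * X + 2 * X ^ 2 + 6 * X ^ 3]

theorem w_mul_B : w * B = 1 := by
  decide

theorem char_zero : (11 : (ZMod 11)[X]) = 0 := by
  have h : ((11 : ℕ) : (ZMod 11)[X]) = 0 := by
    rw [← map_natCast (C : ZMod 11 →+* (ZMod 11)[X]), ZMod.natCast_self, map_zero]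
  exact_mod_cast h

theorem row_0 : derivative (cycPoly 11 0) =
    (∑ j : Fin 9, C (w 0 j) * X ^ (j : ℕ)) * cycPoly 11 0 + X ^ 9 * Q 0 := by
  simp [cycPoly, w, Q, Fin.sum_univ_succ, Finset.sum_range_succ, derivative_pow]
  try simp only [show (C (2 : ZMod 11) : (ZMod 11)[X]) = 2 from rfl, show (C (3 : ZMod 11) : (ZMod 11)[X]) = 3 from rfl, show (C (4 : ZMod 11) : (ZMod 11)[X]) = 4 from rfl, show (C (5 : ZMod 11) : (ZMod 11)[X]) = 5 from rfl, show (C (6 : ZMod 11) : (ZMod 11)[X]) = 6 from rfl, show (C (7 : ZMod 11) : (ZMod 11)[X]) = 7 from rfl, show (C (8 : ZMod 11) : (ZMod 11)[X]) = 8 from rfl, show (C (9 : ZMod 11) : (ZMod 11)[X]) = 9 from rfl, show (C (10 : ZMod 11) : (ZMod 11)[X]) = 10 from rfl]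
  linear_combination (-X - X ^ 2 - X ^ 3 - X ^ 4 - X ^ 5 - X ^ 6 - X ^ 7 - X ^ 8 - X ^ 9) * char_zero

theorem row_1 : derivative (cycPoly 11 1) =
    (∑ j : Fin 9, C (w 1 j) * X ^ (j : ℕ)) * cycPoly 11 1 + X ^ 9 * Q 1 := by
  simp [cycPoly, w, Q, Fin.sum_univ_succ, Finset.sum_range_succ, derivative_pow]
  try simp only [show (C (2 : ZMod 11) : (ZMod 11)[X]) = 2 from rfl, show (C (3 : ZMod 11) : (ZMod 11)[X]) = 3 from rfl, show (C (4 : ZMod 11) : (ZMod 11)[X]) = 4 from rfl, show (C (5 : ZMod 11) : (ZMod 11)[X]) = 5 from rfl, show (C (6 : ZMod 11) : (ZMod 11)[X]) = 6 from rfl, show (C (7 : ZMod 11) : (ZMod 11)[X]) = 7 from rfl, show (C (8 : ZMod 11) : (ZMod 11)[X]) = 8 from rfl, show (C (9 : ZMod 11) : (ZMod 11)[X]) = 9 from rfl, show (C (10 : ZMod 11) : (ZMod 11)[X]) = 10 from rfl]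
  linear_combination (-1 - 2 * X - 2 * X ^ 2 - X ^ 3 - 2 * X ^ 4 - 2 * X ^ 5 - 2 * X ^ 6 - 2 * X ^ 7 - X ^ 8 - X ^ 9) * char_zero

theorem row_2 : derivative (cycPoly 11 2) =
    (∑ j : Fin 9, C (w 2 j) * X ^ (j : ℕ)) * cycPoly 11 2 + X ^ 9 * Q 2 := by
  simp [cycPoly, w, Q, Fin.sum_univ_succ, Finset.sum_range_succ, derivative_pow]
  try simp only [show (C (2 : ZMod 11) : (ZMod 11)[X]) = 2 from rfl, show (C (3 : ZMod 11) : (ZMod 11)[X]) = 3 from rfl, show (C (4 : ZMod 11) : (ZMod 11)[X]) = 4 from rfl, show (C (5 : ZMod 11) : (ZMod 11)[X]) = 5 from rfl, show (C (6 : ZMod 11) : (ZMod 11)[X]) = 6 from rfl, show (C (7 : ZMod 11) : (ZMod 11)[X]) = 7 from rfl, show (C (8 : ZMod 11) : (ZMod 11)[X]) = 8 from rfl, show (C (9 : ZMod 11) : (ZMod 11)[X]) = 9 from rfl, show (C (10 : ZMod 11) : (ZMod 11)[X]) = 10 from rfl]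
  linear_combination (-2 * X - 2 * X ^ 2 - 2 * X ^ 3 - 3 * X ^ 4 - 4 * X ^ 5 - 3 * X ^ 6 - 2 * X ^ 7 - X ^ 8 - X ^ 9) * char_zero

theorem row_3 : derivative (cycPoly 11 3) =
    (∑ j : Fin 9, C (w 3 j) * X ^ (j : ℕ)) * cycPoly 11 3 + X ^ 9 * Q 3 := by
  simp [cycPoly, w, Q, Fin.sum_univ_succ, Finset.sum_range_succ, derivative_pow]
  try simp only [show (C (2 : ZMod 11) : (ZMod 11)[X]) = 2 from rfl, show (C (3 : ZMod 11) : (ZMod 11)[X]) = 3 from rfl, show (C (4 : ZMod 11) : (ZMod 11)[X]) = 4 from rfl, show (C (5 : ZMod 11) : (ZMod 11)[X]) = 5 from rfl, show (C (6 : ZMod 11) : (ZMod 11)[X]) = 6 from rfl, show (C (7 : ZMod 11) : (ZMod 11)[X]) = 7 from rfl, show (C (8 : ZMod 11) : (ZMod 11)[X]) = 8 from rfl, show (C (9 : ZMod 11) : (ZMod 11)[X]) = 9 from rfl, show (C (10 : ZMod 11) : (ZMod 11)[X]) = 10 from rfl]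
  linear_combination (-2 - 6 * X - 7 * X ^ 2 - 7 * X ^ 3 - 8 * X ^ 4 - 9 * X ^ 5 - 8 * X ^ 6 - 5 * X ^ 7 - 2 * X ^ 8 - X ^ 9) * char_zero

theorem row_4 : derivative (cycPoly 11 4) =
    (∑ j : Fin 9, C (w 4 j) * X ^ (j : ℕ)) * cycPoly 11 4 + X ^ 9 * Q 4 := by
  simp [cycPoly, w, Q, Fin.sum_univ_succ, Finset.sum_range_succ, derivative_pow]
  try simp only [show (C (2 : ZMod 11) : (ZMod 11)[X]) = 2 from rfl, show (C (3 : ZMod 11) : (ZMod 11)[X]) = 3 from rfl, show (C (4 : ZMod 11) : (ZMod 11)[X]) = 4 from rfl, show (C (5 : ZMod 11) : (ZMod 11)[X]) = 5 from rfl, show (C (6 : ZMod 11) : (ZMod 11)[X]) = 6 from rfl, show (C (7 : ZMod 11) : (ZMod 11)[X]) = 7 from rfl, show (C (8 : ZMod 11) : (ZMod 11)[X]) = 8 from rfl, show (C (9 : ZMod 11) : (ZMod 11)[X]) = 9 from rfl, show (C (10 : ZMod 11) : (ZMod 11)[X]) = 10 from rfl]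
  linear_combination (-5 * X ^ 2 - 11 * X ^ 3 - 12 * X ^ 4 - 10 * X ^ 5 - 10 * X ^ 6 - 13 * X ^ 7 - 15 * X ^ 8 - 13 * X ^ 9 - 8 * X ^ 10 - 3 * X ^ 11 - X ^ 12) * char_zero

end Fermat.Agent.Kummer.KL.Cert11

namespace Fermat.Agent.Kummer.KL

theorem cert_eleven : Cert 11 5 9 := by
  refine ⟨Cert11.w, Cert11.B, Cert11.Q, Cert11.w_mul_B, fun a => ?_⟩
  fin_cases a
  · exact Cert11.row_0
  · exact Cert11.row_1
  · exact Cert11.row_2
  · exact Cert11.row_3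
  · exact Cert11.row_4

end Fermat.Agent.Kummer.KL
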