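import Fermat.Agent.Kummer.KL.Defs

/-!
# Kummer's lemma by a finite certificate: the certificate for `p = 13`

Generated data: the matrix `w` of logarithmic derivatives of the cyclotomic units modulo `X^11`,
a right inverse `B`, the quotients `Q` and the polynomial identities.
-/

set_option autoImplicit false
set_option linter.unusedSimpArgs false
set_option linter.style.longLine false

namespace Fermat.Agent.Kummer.KL.Cert13

open Polynomial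

/-- The logarithmic derivatives of the cyclotomic units modulo `X^11`. -/
def w : Matrix (Fin 6) (Fin 11) (ZMod 13) :=
  !![1, 12, 1, 12, 1, 12, 1, 12, 1, 12, 1;
      7, 3, 5, 4, 11, 1, 6, 10, 8, 9, 2;
      1, 4, 0, 3, 10, 2, 12, 9, 0, 10, 3;
      8, 3, 11, 11, 1, 1, 11, 5, 4, 9, 4;
      2, 0, 12, 6, 0, 2, 11, 4, 7, 3, 5;
      9, 8, 3, 8, 9, 1, 6, 7, 6, 7, 6]

/-- A right inverse of `w`. -/
def B : Matrix (Fin 11) (Fin 6) (ZMod 13) :=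
  !![1, 10, 12, 7, 4, 4;
      3, 2, 12, 11, 2, 1;
      0, 0, 0, 0, 0, 0;
      3, 10, 2, 9, 2, 2;
      0, 0, 0, 0, 0, 0;
      9, 7, 4, 9, 7, 11;
      0, 0, 0, 0, 0, 0;
      7, 11, 0, 6, 1, 1;
      0, 0, 0, 0, 0, 0;
      4, 6, 7, 11, 5, 2;
      0, 0, 0, 0, 0, 0]

/-- The quotients. -/
noncomputable def Q : Fin 6 → (ZMod 13)[X] :=
  ![12,
    11,
    7 + 10 * X,
    1 + X + 9 * X ^ 2,
    11 + 6 * X + 11 * X ^ 2 + 8 * X ^ 3,
    9 + 5 * X + 5 * X ^ 2 + 9 * X ^ 3 + 7 * X ^ 4]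

theorem w_mul_B : w * B = 1 := by
  decide

theorem char_zero : (13 : (ZMod 13)[X]) = 0 := by
  have h : ((13 : ℕ) : (ZMod 13)[X]) = 0 := by
    rw [← map_natCast (C : ZMod 13 →+* (ZMod 13)[X]), ZMod.natCast_self, map_zero]
  exact_mod_cast h

theorem row_0 : derivative (cycPoly 13 0) =
    (∑ j : Fin 11, C (w 0 j) * X ^ (j : ℕ)) * cycPoly 13 0 + X ^ 11 * Q 0 := by
  simp [cycPoly, w, Q, Fin.sum_univ_succ, Finset.sum_range_succ, derivative_pow]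
  try simp only [show (C (2 : ZMod 13) : (ZMod 13)[X]) = 2 from rfl, show (C (3 : ZMod 13) : (ZMod 13)[X]) = 3 from rfl, show (C (4 : ZMod 13) : (ZMod 13)[X]) = 4 from rfl, show (C (5 : ZMod 13) : (ZMod 13)[X]) = 5 from rfl, show (C (6 : ZMod 13) : (ZMod 13)[X]) = 6 from rfl, show (C (7 : ZMod 13) : (ZMod 13)[X]) = 7 from rfl, show (C (8 : ZMod 13) : (ZMod 13)[X]) = 8 from rfl, show (C (9 : ZMod 13) : (ZMod 13)[X]) = 9 from rfl, show (C (10 : ZMod 13) : (ZMod 13)[X]) = 10 from rfl, show (C (11 : ZMod 13) : (ZMod 13)[X]) = 11 from rfl, show (C (12 : ZMod 13) : (ZMod 13)[X]) = 12 from rfl]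
  linear_combination (-X - X ^ 2 - X ^ 3 - X ^ 4 - X ^ 5 - X ^ 6 - X ^ 7 - X ^ 8 - X ^ 9 - X ^ 10 - X ^ 11) * char_zero

theorem row_1 : derivative (cycPoly 13 1) =
    (∑ j : Fin 11, C (w 1 j) * X ^ (j : ℕ)) * cycPoly 13 1 + X ^ 11 * Q 1 := by
  simp [cycPoly, w, Q, Fin.sum_univ_succ, Finset.sum_range_succ, derivative_pow]
  try simp only [show (C (2 : ZMod 13) : (ZMod 13)[X]) = 2 from rfl, show (C (3 : ZMod 13) : (ZMod 13)[X]) = 3 from rfl, show (C (4 : ZMod 13) : (ZMod 13)[X]) = 4 from rfl, show (C (5 : ZMod 13) : (ZMod 13)[X]) = 5 from rfl, show (C (6 : ZMod 13) : (ZMod 13)[X]) = 6 from rfl, show (C (7 : ZMod 13) : (ZMod 13)[X]) = 7 from rfl, show (C (8 : ZMod 13) : (ZMod 13)[X]) = 8 from rfl, show (C (9 : ZMod 13) : (ZMod 13)[X]) = 9 from rfl, show (C (10 : ZMod 13) : (ZMod 13)[X]) = 10 from rfl, show (C (11 : ZMod 13) : (ZMod 13)[X]) = 11 from rfl, show (C (12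 : ZMod 13) : (ZMod 13)[X]) = 12 from rfl]
  linear_combination (-1 - X - X ^ 2 - X ^ 3 - 2 * X ^ 4 - X ^ 5 - X ^ 6 - 2 * X ^ 7 - 2 * X ^ 8 - 2 * X ^ 9 - X ^ 10 - X ^ 11) * char_zero

theorem row_2 : derivative (cycPoly 13 2) =
    (∑ j : Fin 11, C (w 2 j) * X ^ (j : ℕ)) * cycPoly 13 2 + X ^ 11 * Q 2 := by
  simp [cycPoly, w, Q, Fin.sum_univ_succ, Finset.sum_range_succ, derivative_pow]
  try simp only [show (C (2 : ZMod 13) : (ZMod 13)[X]) = 2 from rfl, show (C (3 : ZMod 13) : (ZMod 13)[X]) = 3 from rfl, show (C (4 : ZMod 13) : (ZMod 13)[X]) = 4 from rfl, show (C (5 : ZMod 13) : (ZMod 13)[X]) = 5 from rfl, show (C (6 : ZMod 13) : (ZMod 13)[X]) = 6 from rfl, show (C (7 : ZMod 13) : (ZMod 13)[X]) = 7 from rfl, show (C (8 : ZMod 13) : (ZMod 13)[X]) = 8 from rfl, show (C (9 : ZMod 13) : (ZMod 13)[X]) = 9 from rfl, show (C (10 : ZMod 13) : (ZMod 13)[X]) = 10 from rfl, show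 (C (11 : ZMod 13) : (ZMod 13)[X]) = 11 from rfl, show (C (12 : ZMod 13) : (ZMod 13)[X]) = 12 from rfl]
  linear_combination (-X - X ^ 2 - X ^ 3 - 3 * X ^ 4 - 3 * X ^ 5 - 4 * X ^ 6 - 5 * X ^ 7 - 3 * X ^ 8 - 3 * X ^ 9 - 3 * X ^ 10 - 2 * X ^ 11 - X ^ 12) * char_zero

theorem row_3 : derivative (cycPoly 13 3) =
    (∑ j : Fin 11, C (w 3 j) * X ^ (j : ℕ)) * cycPoly 13 3 + X ^ 11 * Q 3 := by
  simp [cycPoly, w, Q, Fin.sum_univ_succ, Finset.sum_range_succ, derivative_pow]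
  try simp only [show (C (2 : ZMod 13) : (ZMod 13)[X]) = 2 from rfl, show (C (3 : ZMod 13) : (ZMod 13)[X]) = 3 from rfl, show (C (4 : ZMod 13) : (ZMod 13)[X]) = 4 from rfl, show (C (5 : ZMod 13) : (ZMod 13)[X]) = 5 from rfl, show (C (6 : ZMod 13) : (ZMod 13)[X]) = 6 from rfl, show (C (7 : ZMod 13) : (ZMod 13)[X]) = 7 from rfl, show (C (8 : ZMod 13) : (ZMod 13)[X]) = 8 from rfl, show (C (9 : ZMod 13) : (ZMod 13)[X]) = 9 from rfl, show (C (10 : ZMod 13) : (ZMod 13)[X]) = 10 from rfl, show (C (11 : ZMod 13) : (ZMod 13)[X]) = 11 from rfl, show (C (12 : ZMod 13) : (ZMod 13)[X]) = 12 from rfl]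
  linear_combination (-2 - 4 * X - 7 * X ^ 2 - 10 * X ^ 3 - 9 * X ^ 4 - 5 * X ^ 5 - 5 * X ^ 6 - 7 * X ^ 7 - 7 * X ^ 8 - 7 * X ^ 9 - 7 * X ^ 10 - 5 * X ^ 11 - 2 * X ^ 12 - X ^ 13) * char_zero

theorem row_4 : derivative (cycPoly 13 4) =
    (∑ j : Fin 11, C (w 4 j) * X ^ (j : ℕ)) * cycPoly 13 4 + X ^ 11 * Q 4 := by
  simp [cycPoly, w, Q, Fin.sum_univ_succ, Finset.sum_range_succ, derivative_pow]
  try simp only [show (C (2 : ZMod 13) : (ZMod 13)[X]) = 2 from rfl, show (C (3 : ZMod 13) : (ZMod 13)[X]) = 3 from rfl, show (C (4 : ZMod 13) : (ZMod 13)[X]) = 4 from rfl, show (C (5 : ZMod 13) : (ZMod 13)[X]) = 5 from rfl, show (C (6 : ZMod 13) : (ZMod 13)[X]) = 6 from rfl, show (C (7 : ZMod 13) : (ZMod 13)[X]) = 7 from rfl, show (C (8 : ZMod 13) : (ZMod 13)[X]) = 8 from rfl, show (C (9 : ZMod 13) : (ZMod 13)[X]) = 9 from rfl, show (C (10 : ZMod 13) : (ZMod 13)[X]) = 10 from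 rfl, show (C (11 : ZMod 13) : (ZMod 13)[X]) = 11 from rfl, show (C (12 : ZMod 13) : (ZMod 13)[X]) = 12 from rfl]
  linear_combination (-5 * X ^ 2 - 12 * X ^ 3 - 14 * X ^ 4 - 10 * X ^ 5 - 9 * X ^ 6 - 12 * X ^ 7 - 15 * X ^ 8 - 14 * X ^ 9 - 12 * X ^ 10 - 10 * X ^ 11 - 6 * X ^ 12 - 3 * X ^ 13 - X ^ 14) * char_zero

theorem row_5 : derivative (cycPoly 13 5) =
    (∑ j : Fin 11, C (w 5 j) * X ^ (j : ℕ)) * cycPoly 13 5 + X ^ 11 * Q 5 := by
  simp [cycPoly, w, Q, Fin.sum_univ_succ, Finset.sum_range_succ, derivative_pow]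
  try simp only [show (C (2 : ZMod 13) : (ZMod 13)[X]) = 2 from rfl, show (C (3 : ZMod 13) : (ZMod 13)[X]) = 3 from rfl, show (C (4 : ZMod 13) : (ZMod 13)[X]) = 4 from rfl, show (C (5 : ZMod 13) : (ZMod 13)[X]) = 5 from rfl, show (C (6 : ZMod 13) : (ZMod 13)[X]) = 6 from rfl, show (C (7 : ZMod 13) : (ZMod 13)[X]) = 7 from rfl, show (C (8 : ZMod 13) : (ZMod 13)[X]) = 8 from rfl, show (C (9 : ZMod 13) : (ZMod 13)[X]) = 9 from rfl, show (C (10 : ZMod 13) : (ZMod 13)[X]) = 10 from rfl, show (C (11 : ZMod 13) : (ZMod 13)[X]) = 11 from rfl, show (C (12 : ZMod 13) : (ZMod 13)[X]) = 12 from rfl]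
  linear_combination (-3 - 11 * X - 21 * X ^ 2 - 28 * X ^ 3 - 31 * X ^ 4 - 31 * X ^ 5 - 29 * X ^ 6 - 26 * X ^ 7 - 26 * X ^ 8 - 29 * X ^ 9 - 31 * X ^ 10 - 29 * X ^ 11 - 21 * X ^ 12 - 11 * X ^ 13 - 4 * X ^ 14 - X ^ 15) * char_zero

end Fermat.Agent.Kummer.KL.Cert13

namespace Fermat.Agent.Kummer.KL

theorem cert_thirteen : Cert 13 6 11 := by
  refine ⟨Cert13.w, Cert13.B, Cert13.Q, Cert13.w_mul_B, fun a => ?_⟩
  fin_cases a
  · exact Cert13.row_0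
  · exact Cert13.row_1
  · exact Cert13.row_2
  · exact Cert13.row_3
  · exact Cert13.row_4
  · exact Cert13.row_5

end Fermat.Agent.Kummer.KL
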