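import Fermat.Agent.Kummer.KL.Defs

/-!
# Kummer's lemma by a finite certificate: the certificate for `p = 5`

Generated data: the matrix `w` of logarithmic derivatives of the cyclotomic units modulo `X^3`,
a right inverse `B`, the quotients `Q` and the polynomial identities.
-/

set_option autoImplicit false
set_option linter.unusedSimpArgs false
set_option linter.style.longLine false

namespace Fermat.Agent.Kummer.KL.Cert5

open Polynomial

/-- The logarithmic derivatives of the cyclotomic units modulo `X^3`. -/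
def w : Matrix (Fin 2) (Fin 3) (ZMod 5) :=
  !![1, 4, 1;
      3, 1, 2]

/-- A right inverse of `w`. -/
def B : Matrix (Fin 3) (Fin 2) (ZMod 5) :=
  !![4, 4;
      3, 4;
      0, 0]

/-- The quotients. -/
noncomputable def Q : Fin 2 → (ZMod 5)[X] :=
  ![4,
    3]

theorem w_mul_B : w * B = 1 := by
  decide

theorem char_zero : (5 : (ZMod 5)[X]) = 0 := by
  have h : ((5 : ℕ) : (ZMod 5)[X]) = 0 := by
    rw [← map_natCast (C : ZMod 5 →+* (ZMod 5)[X]), ZMod.natCast_self, map_zero]
  exact_mod_cast h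

theorem row_0 : derivative (cycPoly 5 0) =
    (∑ j : Fin 3, C (w 0 j) * X ^ (j : ℕ)) * cycPoly 5 0 + X ^ 3 * Q 0 := by
  simp [cycPoly, w, Q, Fin.sum_univ_succ, Finset.sum_range_succ, derivative_pow]
  try simp only [show (C (2 : ZMod 5) : (ZMod 5)[X]) = 2 from rfl, show (C (3 : ZMod 5) : (ZMod 5)[X]) = 3 from rfl, show (C (4 : ZMod 5) : (ZMod 5)[X]) = 4 from rfl]
  linear_combination (-X - X ^ 2 - X ^ 3) * char_zero

theorem row_1 : derivative (cycPoly 5 1) =
    (∑ j : Fin 3, C (w 1 j) * X ^ (j : ℕ)) * cycPoly 5 1 + X ^ 3 * Q 1 := by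
  simp [cycPoly, w, Q, Fin.sum_univ_succ, Finset.sum_range_succ, derivative_pow]
  try simp only [show (C (2 : ZMod 5) : (ZMod 5)[X]) = 2 from rfl, show (C (3 : ZMod 5) : (ZMod 5)[X]) = 3 from rfl, show (C (4 : ZMod 5) : (ZMod 5)[X]) = 4 from rfl]
  linear_combination (-1 - X - X ^ 2 - X ^ 3) * char_zero

end Fermat.Agent.Kummer.KL.Cert5

namespace Fermat.Agent.Kummer.KL

theorem cert_five : Cert 5 2 3 := by
  refine ⟨Cert5.w, Cert5.B, Cert5.Q, Cert5.w_mul_B, fun a => ?_⟩
  fin_cases a
  · exact Cert5.row_0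
  · exact Cert5.row_1

end Fermat.Agent.Kummer.KL
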