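import Fermat.Agent.Kummer.KL.Defs

/-!
# Kummer's lemma by a finite certificate: the certificate for `p = 7`

Generated data: the matrix `w` of logarithmic derivatives of the cyclotomic units modulo `X^5`,
a right inverse `B`, the quotients `Q` and the polynomial identities.
-/

set_option autoImplicit false
set_option linter.unusedSimpArgs false
set_option linter.style.longLine false

namespace Fermat.Agent.Kummer.KL.Cert7

open Polynomial

/-- The logarithmic derivatives of the cyclotomic units modulo `X^5`. -/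
def w : Matrix (Fin 3) (Fin 5) (ZMod 7) :=
  !![1, 6, 1, 6, 1;
      4, 5, 1, 3, 2;
      1, 2, 0, 4, 3]

/-- A right inverse of `w`. -/
def B : Matrix (Fin 5) (Fin 3) (ZMod 7) :=
  !![0, 3, 3;
      5, 4, 0;
      0, 0, 0;
      1, 6, 3;
      0, 0, 0]

/-- The quotients. -/
noncomputable def Q : Fin 3 → (ZMod 7)[X] :=
  ![6,
    5,
    1 + 4 * X]

theorem w_mul_B : w * B = 1 := by
  decide

theorem char_zero : (7 : (ZMod 7)[X]) = 0 := by
  have h : ((7 : ℕ) : (ZMod 7)[X]) = 0 := by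
    rw [← map_natCast (C : ZMod 7 →+* (ZMod 7)[X]), ZMod.natCast_self, map_zero]
  exact_mod_cast h

theorem row_0 : derivative (cycPoly 7 0) =
    (∑ j : Fin 5, C (w 0 j) * X ^ (j : ℕ)) * cycPoly 7 0 + X ^ 5 * Q 0 := by
  simp [cycPoly, w, Q, Fin.sum_univ_succ, Finset.sum_range_succ, derivative_pow]
  try simp only [show (C (2 : ZMod 7) : (ZMod 7)[X]) = 2 from rfl, show (C (3 : ZMod 7) : (ZMod 7)[X]) = 3 from rfl, show (C (4 : ZMod 7) : (ZMod 7)[X]) = 4 from rfl, show (C (5 : ZMod 7) : (ZMod 7)[X]) = 5 from rfl, show (C (6 : ZMod 7) : (ZMod 7)[X]) = 6 from rfl]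
  linear_combination (-X - X ^ 2 - X ^ 3 - X ^ 4 - X ^ 5) * char_zero

theorem row_1 : derivative (cycPoly 7 1) =
    (∑ j : Fin 5, C (w 1 j) * X ^ (j : ℕ)) * cycPoly 7 1 + X ^ 5 * Q 1 := by
  simp [cycPoly, w, Q, Fin.sum_univ_succ, Finset.sum_range_succ, derivative_pow]
  try simp only [show (C (2 : ZMod 7) : (ZMod 7)[X]) = 2 from rfl, show (C (3 : ZMod 7) : (ZMod 7)[X]) = 3 from rfl, show (C (4 : ZMod 7) : (ZMod 7)[X]) = 4 from rfl, show (C (5 : ZMod 7) : (ZMod 7)[X]) = 5 from rfl, show (C (6 : ZMod 7) : (ZMod 7)[X]) = 6 from rfl]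
  linear_combination (-1 - 2 * X - X ^ 2 - X ^ 3 - X ^ 4 - X ^ 5) * char_zero

theorem row_2 : derivative (cycPoly 7 2) =
    (∑ j : Fin 5, C (w 2 j) * X ^ (j : ℕ)) * cycPoly 7 2 + X ^ 5 * Q 2 := by
  simp [cycPoly, w, Q, Fin.sum_univ_succ, Finset.sum_range_succ, derivative_pow]
  try simp only [show (C (2 : ZMod 7) : (ZMod 7)[X]) = 2 from rfl, show (C (3 : ZMod 7) : (ZMod 7)[X]) = 3 from rfl, show (C (4 : ZMod 7) : (ZMod 7)[X]) = 4 from rfl, show (C (5 : ZMod 7) : (ZMod 7)[X]) = 5 from rfl, show (C (6 : ZMod 7) : (ZMod 7)[X]) = 6 from rfl]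
  linear_combination (-X - X ^ 2 - 2 * X ^ 3 - 3 * X ^ 4 - 2 * X ^ 5 - X ^ 6) * char_zero

end Fermat.Agent.Kummer.KL.Cert7

namespace Fermat.Agent.Kummer.KL

theorem cert_seven : Cert 7 3 5 := by
  refine ⟨Cert7.w, Cert7.B, Cert7.Q, Cert7.w_mul_B, fun a => ?_⟩
  fin_cases a
  · exact Cert7.row_0
  · exact Cert7.row_1
  · exact Cert7.row_2

end Fermat.Agent.Kummer.KL
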