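import Fermat.Agent.Kummer.KL.Dual

/-!
# Kummer's lemma by a finite certificate: the cyclotomic units and their images
-/

set_option autoImplicit false

namespace Fermat.Agent.Kummer.KL

open Polynomial NumberField

/-- The cyclotomic units `c_0 = ζ`, `c_a = 1 + ζ + ⋯ + ζ^a` (`1 ≤ a < n`, `p = 2 n + 1`) are units
of `𝓞 K`, and a ring homomorphism `Φ` with `Φ ζ = ev (1 + X)` maps `c_a` to `ev (cycPoly p a)`. -/
theorem exists_cycUnits {p n m : ℕ} [Fact p.Prime] (hn : p = 2 * n + 1) (K : Type) [Field K]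
    [NumberField K] [IsCyclotomicExtension {p} ℚ K] (Φ : 𝓞 K →+* DualNumber (TR p m))
    (hΦ : Φ (IsCyclotomicExtension.zeta_spec p ℚ K).toInteger = ev p m (1 + X)) :
    ∃ c : Fin n → (𝓞 K)ˣ, ∀ a : Fin n, Φ (c a : 𝓞 K) = ev p m (cycPoly p a) := by
  have hp : p.Prime := Fact.out
  -- the primitive `p`-th root of unity `ζ` of `𝓞 K`
  have hζi : IsPrimitiveRoot (IsCyclotomicExtension.zeta_spec p ℚ K).toInteger p :=
    (IsCyclotomicExtension.zeta_spec p ℚ K).toInteger_isPrimitiveRoot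
  -- `ζ` is a unit
  have hu0 : IsUnit (IsCyclotomicExtension.zeta_spec p ℚ K).toInteger :=
    hζi.isUnit hp.ne_zero
  -- the geometric sums `1 + ζ + ⋯ + ζ ^ a` (`a < n`) are units
  have hu : ∀ a : Fin n, IsUnit
      (∑ i ∈ Finset.range ((a : ℕ) + 1),
        (IsCyclotomicExtension.zeta_spec p ℚ K).toInteger ^ i) := by
    intro a
    apply hζi.geom_sum_isUnit hp.two_le
    apply Nat.Coprime.symm
    rw [Nat.Prime.coprime_iff_not_dvd hp]
    apply Nat.not_dvd_of_pos_of_lt (Nat.succ_pos _)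
    have := a.isLt
    omega
  refine ⟨fun a => if (a : ℕ) = 0 then hu0.unit else (hu a).unit, fun a => ?_⟩
  by_cases h : (a : ℕ) = 0
  · have hc : cycPoly p (a : ℕ) = 1 + X := by
      unfold cycPoly
      rw [if_pos h]
    simp only [if_pos h]
    rw [IsUnit.unit_spec, hΦ, hc]
  · have hc : cycPoly p (a : ℕ) = ∑ i ∈ Finset.range ((a : ℕ) + 1), (1 + X) ^ i := by
      unfold cycPoly
      rw [if_neg h]
    simp only [if_neg h]
    rw [IsUnit.unit_spec, hc, map_sum, map_sum]
    refine Finset.sum_congr rfl fun i _ => ?_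
    rw [map_pow, hΦ, map_pow]

end Fermat.Agent.Kummer.KL
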