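import Fermat.Agent.Kummer.KL.Defs

/-!
# Kummer's lemma by a finite certificate: dual numbers over the truncated polynomial ring,
the logarithmic derivative and the reduction homomorphism `𝓞 K → DualNumber (TR p m)`
-/

set_option autoImplicit false

namespace Fermat.Agent.Kummer.KL

open Polynomial NumberField

/-- For a unit `a` of the dual numbers, `fst a * fst a⁻¹ = 1`. -/
private theorem dual_fst_mul_fst_inv {R : Type*} [CommRing R] (a : (DualNumber R)ˣ) :
    TrivSqZeroExt.fst (a : DualNumber R) *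
      TrivSqZeroExt.fst ((a⁻¹ : (DualNumber R)ˣ) : DualNumber R) = 1 := by
  have h := congrArg TrivSqZeroExt.fst (Units.mul_inv a)
  rwa [TrivSqZeroExt.fst_mul, TrivSqZeroExt.fst_one] at h

/-- The logarithmic derivative on the units of the dual numbers: `t + s ε ↦ s / t`. -/
noncomputable def dlog (R : Type*) [CommRing R] : (DualNumber R)ˣ →* Multiplicative R where
  toFun a := Multiplicative.ofAdd
    (TrivSqZeroExt.snd (a : DualNumber R) * TrivSqZeroExt.fst ((a⁻¹ : (DualNumber R)ˣ) : DualNumber R))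
  map_one' := by
    show Multiplicative.ofAdd
      (TrivSqZeroExt.snd (((1 : (DualNumber R)ˣ) : DualNumber R)) *
        TrivSqZeroExt.fst ((((1 : (DualNumber R)ˣ)⁻¹ : (DualNumber R)ˣ) : DualNumber R))) = 1
    rw [Units.val_one, TrivSqZeroExt.snd_one, zero_mul, ofAdd_zero]
  map_mul' := by
    intro a b
    show Multiplicative.ofAdd
      (TrivSqZeroExt.snd (((a * b : (DualNumber R)ˣ)) : DualNumber R) *
        TrivSqZeroExt.fst ((((a * b)⁻¹ : (DualNumber R)ˣ) : DualNumber R))) =
      Multiplicative.ofAdd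
        (TrivSqZeroExt.snd (a : DualNumber R) *
          TrivSqZeroExt.fst ((a⁻¹ : (DualNumber R)ˣ) : DualNumber R)) *
      Multiplicative.ofAdd
        (TrivSqZeroExt.snd (b : DualNumber R) *
          TrivSqZeroExt.fst ((b⁻¹ : (DualNumber R)ˣ) : DualNumber R))
    have ha := dual_fst_mul_fst_inv a
    have hb := dual_fst_mul_fst_inv b
    rw [← ofAdd_add]
    congr 1
    have hab : (a * b)⁻¹ = a⁻¹ * b⁻¹ := mul_inv a b
    rw [hab, Units.val_mul, Units.val_mul, TrivSqZeroExt.fst_mul, TrivSqZeroExt.snd_mul,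
      smul_eq_mul, MulOpposite.smul_eq_mul_unop, MulOpposite.unop_op]
    linear_combination
      (TrivSqZeroExt.snd (b : DualNumber R) *
          TrivSqZeroExt.fst ((b⁻¹ : (DualNumber R)ˣ) : DualNumber R)) * ha +
        (TrivSqZeroExt.snd (a : DualNumber R) *
          TrivSqZeroExt.fst ((a⁻¹ : (DualNumber R)ˣ) : DualNumber R)) * hb

private theorem dlog_apply {R : Type*} [CommRing R] (a : (DualNumber R)ˣ) :
    dlog R a = Multiplicative.ofAdd
      (TrivSqZeroExt.snd (a : DualNumber R) *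
        TrivSqZeroExt.fst ((a⁻¹ : (DualNumber R)ˣ) : DualNumber R)) :=
  rfl

theorem dlog_eq_one_of_snd_eq_zero {R : Type*} [CommRing R] (a : (DualNumber R)ˣ)
    (h : TrivSqZeroExt.snd (a : DualNumber R) = 0) : dlog R a = 1 := by
  rw [dlog_apply, h, zero_mul, ofAdd_zero]

theorem dlog_eq_of_snd_eq_mul {R : Type*} [CommRing R] (a : (DualNumber R)ˣ) (w : R)
    (h : TrivSqZeroExt.snd (a : DualNumber R) = w * TrivSqZeroExt.fst (a : DualNumber R)) :
    dlog R a = Multiplicative.ofAdd w := by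
  rw [dlog_apply, h, mul_assoc, dual_fst_mul_fst_inv, mul_one]

/-- The ring homomorphism `F ↦ F(x) + F'(x) ε` from `(ZMod p)[X]` to the dual numbers over
`TR p m = (ZMod p)[X] / (X^m)`. -/
noncomputable def ev (p m : ℕ) : (ZMod p)[X] →+* DualNumber (TR p m) where
  toFun F := TrivSqZeroExt.inl (mkTR p m F) + TrivSqZeroExt.inr (mkTR p m (derivative F))
  map_one' := by
    apply TrivSqZeroExt.ext <;> simp
  map_mul' := by
    intro F G
    apply TrivSqZeroExt.ext
    · simp
    · simp [derivative_mul]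
      ring
  map_zero' := by
    apply TrivSqZeroExt.ext <;> simp
  map_add' := by
    intro F G
    apply TrivSqZeroExt.ext
    · simp
    · simp

private theorem ev_apply (p m : ℕ) (F : (ZMod p)[X]) :
    ev p m F = TrivSqZeroExt.inl (mkTR p m F) + TrivSqZeroExt.inr (mkTR p m (derivative F)) :=
  rfl

theorem ev_fst (p m : ℕ) (F : (ZMod p)[X]) : TrivSqZeroExt.fst (ev p m F) = mkTR p m F := by
  rw [ev_apply]; simp

theorem ev_snd (p m : ℕ) (F : (ZMod p)[X]) :
    TrivSqZeroExt.snd (ev p m F) = mkTR p m (derivative F) := by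
  rw [ev_apply]; simp

/-- In characteristic `p`: `∑_{i<p} (1 + X)^i = X^(p-1)`. -/
theorem geom_sum_one_add_X (p : ℕ) [Fact p.Prime] :
    ∑ i ∈ Finset.range p, (1 + X : (ZMod p)[X]) ^ i = X ^ (p - 1) := by
  have hp : p.Prime := Fact.out
  have h1 : (X : (ZMod p)[X]) * ∑ i ∈ Finset.range p, (1 + X : (ZMod p)[X]) ^ i =
      X * X ^ (p - 1) := by
    have h2 := mul_geom_sum (1 + X : (ZMod p)[X]) p
    rw [add_sub_cancel_left] at h2
    rw [h2, add_pow_char, one_pow, add_sub_cancel_left, ← pow_succ', Nat.sub_add_cancel hp.one_le]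
  exact mul_left_cancel₀ X_ne_zero h1

/-- The reduction homomorphism `𝓞 K → DualNumber (TR p (p - 2))` with `ζ ↦ 1 + x + ε`. -/
theorem exists_ringHom {p m : ℕ} [Fact p.Prime] (hm : p = m + 2) (K : Type) [Field K]
    [NumberField K] [IsCyclotomicExtension {p} ℚ K] :
    ∃ Φ : 𝓞 K →+* DualNumber (TR p m),
      Φ (IsCyclotomicExtension.zeta_spec p ℚ K).toInteger = ev p m (1 + X) := by
  have hp : p.Prime := Fact.out
  have hζ := IsCyclotomicExtension.zeta_spec p ℚ K
  -- the value of `ev` at `X ^ (p - 1)` vanishes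
  have hev : ev p m (X ^ (p - 1)) = 0 := by
    apply TrivSqZeroExt.ext
    · rw [ev_fst, TrivSqZeroExt.fst_zero, Ideal.Quotient.eq_zero_iff_mem, Ideal.mem_span_singleton]
      exact pow_dvd_pow X (by omega)
    · rw [ev_snd, TrivSqZeroExt.snd_zero, Ideal.Quotient.eq_zero_iff_mem,
        Ideal.mem_span_singleton, derivative_X_pow]
      exact Dvd.dvd.mul_left (pow_dvd_pow X (by omega)) _
  have hmin : minpoly ℤ hζ.integralPowerBasis.gen = cyclotomic p ℤ := by
    rw [IsPrimitiveRoot.integralPowerBasis_gen, ← RingOfIntegers.minpoly_coe,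
      cyclotomic_eq_minpoly hζ hp.pos]
    rfl
  have hy : aeval (ev p m (1 + X)) (minpoly ℤ hζ.integralPowerBasis.gen) = 0 := by
    rw [hmin, cyclotomic_prime ℤ p, map_sum]
    simp only [map_pow, aeval_X]
    rw [← hev, ← geom_sum_one_add_X p, map_sum]
    simp only [map_pow]
  refine ⟨(hζ.integralPowerBasis.lift (ev p m (1 + X)) hy).toRingHom, ?_⟩
  have h := hζ.integralPowerBasis.lift_gen (ev p m (1 + X)) hy
  rw [IsPrimitiveRoot.integralPowerBasis_gen] at h
  exact h

end Fermat.Agent.Kummer.KL
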