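import Fermat.Agent.Kummer.KL.Defs

/-!
# Kummer's lemma by a finite certificate: linear independence of the rows of a matrix with a
right inverse, as elements of the truncated polynomial ring
-/

set_option autoImplicit false

namespace Fermat.Agent.Kummer.KL

open Polynomial

/-- Scalar multiplication by a constant in the truncated polynomial ring is the class of the
product with the corresponding constant polynomial. -/
private theorem smul_mkTR (p m : ℕ) (c : ZMod p) (F : (ZMod p)[X]) :
    c • mkTR p m F = mkTR p m (C c * F) := by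
  rw [← Polynomial.smul_eq_C_mul]
  rfl

/-- A polynomial of the shape `∑ j < m, v j X^j` whose class modulo `X^m` vanishes has all its
coefficients `v j` equal to zero. -/
private theorem eq_zero_of_mkTR_sum_eq_zero {p m : ℕ} [Fact p.Prime] (v : Fin m → ZMod p)
    (h : mkTR p m (∑ j : Fin m, C (v j) * X ^ (j : ℕ)) = 0) : v = 0 := by
  have hdvd : (X : (ZMod p)[X]) ^ m ∣ ∑ j : Fin m, C (v j) * X ^ (j : ℕ) := by
    rw [← Ideal.mem_span_singleton]
    exact Ideal.Quotient.eq_zero_iff_mem.mp h
  have hdeg : (∑ j : Fin m, C (v j) * X ^ (j : ℕ)).degree < ((X : (ZMod p)[X]) ^ m).degree := by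
    rw [Polynomial.degree_X_pow]
    exact Polynomial.degree_sum_fin_lt v
  have hzero : ∑ j : Fin m, C (v j) * X ^ (j : ℕ) = 0 :=
    Polynomial.eq_zero_of_dvd_of_degree_lt hdvd hdeg
  funext j
  have hc : (∑ i : Fin m, C (v i) * X ^ (i : ℕ)).coeff (j : ℕ) = v j := by
    rw [Polynomial.finsetSum_coeff, Finset.sum_eq_single j]
    · rw [Polynomial.coeff_C_mul_X_pow, if_pos rfl]
    · intro i _ hij
      rw [Polynomial.coeff_C_mul_X_pow, if_neg]
      intro hji
      exact hij (Fin.ext hji.symm)
    · intro hj
      exact absurd (Finset.mem_univ j) hj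
  rw [hzero, Polynomial.coeff_zero] at hc
  rw [← hc]
  rfl

/-- If the `n × m` matrix `w` has a right inverse, the classes of the polynomials
`∑ j < m, w a j X^j` (`a < n`) in `(ZMod p)[X] / (X^m)` are linearly independent over `ZMod p`. -/
theorem linearIndependent_rows {p n m : ℕ} [Fact p.Prime] (w : Matrix (Fin n) (Fin m) (ZMod p))
    (B : Matrix (Fin m) (Fin n) (ZMod p)) (hwB : w * B = 1) :
    LinearIndependent (ZMod p)
      (fun a : Fin n => mkTR p m (∑ j : Fin m, C (w a j) * X ^ (j : ℕ))) := by
  rw [Fintype.linearIndependent_iff]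
  intro l hl
  -- the linear combination is the class of the polynomial with coefficient vector `l ᵥ* w`
  have hS : mkTR p m (∑ j : Fin m, C (Matrix.vecMul l w j) * X ^ (j : ℕ)) = 0 := by
    rw [← hl]
    simp only [smul_mkTR, ← map_sum]
    congr 1
    simp only [Finset.mul_sum, Matrix.vecMul, dotProduct, map_sum, map_mul, Finset.sum_mul]
    rw [Finset.sum_comm]
    refine Finset.sum_congr rfl fun a _ => Finset.sum_congr rfl fun j _ => ?_
    ring
  have hv : Matrix.vecMul l w = 0 := eq_zero_of_mkTR_sum_eq_zero _ hS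
  have hl' : l = Matrix.vecMul (Matrix.vecMul l w) B := by
    rw [Matrix.vecMul_vecMul, hwB, Matrix.vecMul_one]
  intro a
  rw [hl', hv, Matrix.zero_vecMul]
  rfl

end Fermat.Agent.Kummer.KL
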