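import Mathlib

/-!
# Kummer's lemma by a finite certificate: the unit group of the `p`-th cyclotomic field is
generated by `(p - 1) / 2` elements (Dirichlet's unit theorem)
-/

set_option autoImplicit false

namespace Fermat.Agent.Kummer.KL

open NumberField

/-- The unit rank of the `p`-th cyclotomic field (`p = 2 n + 1` prime) is `n - 1`. -/
private theorem rank_eq_of_prime {p : ℕ} [Fact p.Prime] (K : Type) [Field K] [NumberField K]
    [IsCyclotomicExtension {p} ℚ K] {n : ℕ} (hn : p = 2 * n + 1) :
    n = NumberField.Units.rank K + 1 := by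
  have hp : p.Prime := Fact.out
  have hn1 : 1 ≤ n := by
    rcases Nat.eq_zero_or_pos n with h | h
    · have hp1 : p = 1 := by rw [hn, h]
      exact absurd (hp1 ▸ hp) Nat.not_prime_one
    · exact h
  have hp2 : 2 < p := by omega
  have : NeZero p := ⟨hp.pos.ne'⟩
  have hrank : NumberField.Units.rank K = n - 1 := by
    dsimp only [NumberField.Units.rank]
    rw [NumberField.InfinitePlace.card_eq_nrRealPlaces_add_nrComplexPlaces,
      IsCyclotomicExtension.Rat.nrRealPlaces_eq_zero (n := p) K hp2, zero_add,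
      IsCyclotomicExtension.Rat.nrComplexPlaces_eq_totient_div_two (n := p),
      Nat.totient_prime hp, hn]
    omega
  omega

/-- The unit group of the ring of integers of the `p`-th cyclotomic field (`p = 2 n + 1` prime) is
generated by `n` elements: a generator of the torsion subgroup and `n - 1` fundamental units. -/
theorem exists_generators {p : ℕ} [Fact p.Prime] (K : Type) [Field K] [NumberField K]
    [IsCyclotomicExtension {p} ℚ K] {n : ℕ} (hn : p = 2 * n + 1) :
    ∃ g : Fin n → (𝓞 K)ˣ, ∀ u : (𝓞 K)ˣ, ∃ e : Fin n → ℤ, u = ∏ i, g i ^ e i := by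
  obtain rfl : n = NumberField.Units.rank K + 1 := rank_eq_of_prime K hn
  obtain ⟨t, ht⟩ := IsCyclic.exists_generator (α := NumberField.Units.torsion K)
  refine ⟨Fin.cons (t : (𝓞 K)ˣ) (NumberField.Units.fundSystem K), fun u => ?_⟩
  obtain ⟨⟨x, e⟩, hxu, -⟩ := NumberField.Units.exist_unique_eq_mul_prod K u
  obtain ⟨k, hk⟩ := Subgroup.mem_zpowers_iff.mp (ht x)
  refine ⟨Fin.cons k e, ?_⟩
  rw [Fin.prod_univ_succ]
  simp only [Fin.cons_zero, Fin.cons_succ]
  rw [hxu, ← hk, Subgroup.coe_zpow]

end Fermat.Agent.Kummer.KL
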