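import Fermat.Agent.Kummer.KL.Abstract
import Fermat.Agent.Kummer.KL.UnitGen
import Fermat.Agent.Kummer.KL.Dual
import Fermat.Agent.Kummer.KL.Indep
import Fermat.Agent.Kummer.KL.CycUnits

/-!
# Kummer's lemma by a finite certificate: the criterion
-/

set_option autoImplicit false

namespace Fermat.Agent.Kummer.KL

open Polynomial NumberField

/-- A ring homomorphism to a ring in which `p = 0` maps an element congruent to an integer
modulo `p` to that integer. -/
theorem map_eq_intCast_of_dvd {p : ℕ} {A B : Type*} [CommRing A] [CommRing B] (Φ : A →+* B)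
    (hp : (p : B) = 0) {u : A} {a : ℤ} (h : (p : A) ∣ u - (a : A)) : Φ u = (a : B) := by
  obtain ⟨x, hx⟩ := h
  have : u = (a : A) + (p : A) * x := by rw [← hx]; ring
  rw [this, map_add, map_mul, map_natCast, map_intCast, hp, zero_mul, add_zero]

theorem natCast_self_dualNumber_TR (p m : ℕ) : ((p : ℕ) : DualNumber (TR p m)) = 0 := by
  have h1 : ((p : ℕ) : (ZMod p)[X]) = 0 := by
    rw [← map_natCast (C : ZMod p →+* (ZMod p)[X]), ZMod.natCast_self, map_zero]
  have h2 : ((p : ℕ) : TR p m) = 0 := by
    rw [← map_natCast (mkTR p m), h1, map_zero]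
  rw [← map_natCast (TrivSqZeroExt.inlHom (TR p m) (TR p m)), h2, map_zero]

/-- **Kummer's lemma from a finite certificate.** -/
theorem kummerProp_of_cert {p n m : ℕ} [Fact p.Prime] (K : Type) [Field K] [NumberField K]
    [IsCyclotomicExtension {p} ℚ K] (hn : p = 2 * n + 1) (hm : p = m + 2) (cert : Cert p n m) :
    KummerProp p K := by
  obtain ⟨w, B, Q, hwB, hW⟩ := cert
  obtain ⟨Φ, hΦ⟩ := exists_ringHom hm K
  obtain ⟨c, hc⟩ := exists_cycUnits hn K Φ hΦ
  obtain ⟨g, hg⟩ := exists_generators K hn
  -- the logarithmic derivative of the reduction of a unit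
  let D : (𝓞 K)ˣ →* Multiplicative (TR p m) := (dlog (TR p m)).comp (Units.map Φ.toMonoidHom)
  have hDc : ∀ a : Fin n, Multiplicative.toAdd (D (c a)) =
      mkTR p m (∑ j : Fin m, C (w a j) * X ^ (j : ℕ)) := by
    intro a
    have h1 : D (c a) = Multiplicative.ofAdd (mkTR p m (∑ j : Fin m, C (w a j) * X ^ (j : ℕ))) := by
      apply dlog_eq_of_snd_eq_mul
      have h2 : ((Units.map Φ.toMonoidHom (c a) : (DualNumber (TR p m))ˣ) : DualNumber (TR p m)) =
          ev p m (cycPoly p a) := hc a
      rw [h2, ev_fst, ev_snd, hW a, map_add, map_mul, map_mul, map_pow]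
      have h3 : mkTR p m X ^ m = 0 := by
        rw [← map_pow]
        exact Ideal.Quotient.eq_zero_iff_mem.mpr (Ideal.subset_span rfl)
      rw [h3, zero_mul, add_zero]
    rw [h1]; rfl
  have hind : LinearIndependent (ZMod p) (fun i => Multiplicative.toAdd (D (c i))) := by
    have := linearIndependent_rows w B hwB
    convert this using 1
    funext a
    exact hDc a
  intro u ⟨a, ha⟩
  apply exists_pow_of_dlog_eq_one g hg D c hind u
  apply dlog_eq_one_of_snd_eq_zero
  have h2 : ((Units.map Φ.toMonoidHom u : (DualNumber (TR p m))ˣ) : DualNumber (TR p m)) =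
      ((a : ℤ) : DualNumber (TR p m)) := by
    rw [Units.coe_map]
    exact map_eq_intCast_of_dvd (A := 𝓞 K) (B := DualNumber (TR p m)) Φ
      (natCast_self_dualNumber_TR p m) ha
  rw [h2]
  simp

end Fermat.Agent.Kummer.KL
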