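import Fermat.Agent.Kummer.Defs

/-!
# Kummer's lemma by a finite certificate: definitions

`TR p m = (ZMod p)[X] / (X^m)` is the truncated polynomial ring, `ev p m F = F(x) + F'(x) ε` the
ring homomorphism from `(ZMod p)[X]` to the dual numbers over `TR p m`.
`cycPoly p a` is the image of the cyclotomic unit `c_a` under `ζ ↦ 1 + X`
(`c_0 = ζ`, `c_a = 1 + ζ + ⋯ + ζ^a` for `a ≥ 1`).
`Cert p n m` is the finite certificate: the logarithmic derivatives of the `cycPoly p a`
(`a < n`) modulo `X^m` are the rows of a matrix `w` having a right inverse.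
-/

set_option autoImplicit false

namespace Fermat.Agent.Kummer.KL

open Polynomial

/-- The truncated polynomial ring `(ZMod p)[X] / (X^m)`. -/
abbrev TR (p m : ℕ) : Type := (ZMod p)[X] ⧸ Ideal.span {(X : (ZMod p)[X]) ^ m}

/-- The class of a polynomial in `TR p m`. -/
noncomputable abbrev mkTR (p m : ℕ) : (ZMod p)[X] →+* TR p m := Ideal.Quotient.mk _

/-- The image of the `a`-th cyclotomic unit under `ζ ↦ 1 + X`. -/
noncomputable def cycPoly (p a : ℕ) : (ZMod p)[X] :=
  if a = 0 then 1 + X else ∑ i ∈ Finset.range (a + 1), (1 + X) ^ i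

/-- The finite certificate for Kummer's lemma. -/
def Cert (p n m : ℕ) : Prop :=
  ∃ (w : Matrix (Fin n) (Fin m) (ZMod p)) (B : Matrix (Fin m) (Fin n) (ZMod p))
    (Q : Fin n → (ZMod p)[X]),
    w * B = 1 ∧ ∀ a : Fin n, derivative (cycPoly p a) =
      (∑ j : Fin m, C (w a j) * X ^ (j : ℕ)) * cycPoly p a + X ^ m * Q a

end Fermat.Agent.Kummer.KL
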